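import Fermat.Agent.S41.Corr
import Fermat.Agent.Lib.HeckeHom.Char

/-!
# S41: the families of matrices defining `res`, `tw`, `cores`, `W`  (owner: helper140)

Levels `N` and `N * q`, `q` coprime to `N`.  Ambient group `GL₂(ℝ)`, embeddings
`Lib.HeckeHom.incl`.
* `res`   : the family `{1}`                      from `Γ₀(Nq)` to `Γ₀(N)`;
* `tw`    : the family `{δ}`, `δ = diag(q, 1)`    from `Γ₀(Nq)` to `Γ₀(N)`;
* `W`     : the family `{w}`, `w = ρ₀ δ`          from `Γ₀(Nq)` to `Γ₀(Nq)`;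
* `cores` : the family `{1} ∪ {ρ₀ T^j : j mod q}` from `Γ₀(N)` to `Γ₀(Nq)`,
where `ρ₀ = [[x, y], [N, q]] ∈ Γ₀(N)`, `q x - N y = 1`.
-/

set_option autoImplicit false

open Matrix.SpecialLinearGroup CongruenceSubgroup ModularForm
open scoped MatrixGroups OnePoint

namespace Fermat.Agent.S41

open Fermat.Agent.Lib.HeckeHom

/-- `ρ₀ = [[x, y], [N, q]]` with `q x - N y = 1` as an element of `SL₂(ℤ)`. -/
def rho0SL (N q : ℕ) (h : Nat.Coprime q N) : SL(2, ℤ) :=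
  ⟨!![Int.gcdA q N, - Int.gcdB q N; (N : ℤ), (q : ℤ)], by
    have h1 := Int.gcd_eq_gcd_ab (q : ℤ) (N : ℤ)
    have h2 : Int.gcd (q : ℤ) (N : ℤ) = 1 := by simpa [Int.gcd_natCast_natCast] using h
    rw [h2] at h1
    rw [Matrix.det_fin_two_of]
    push_cast at h1
    linarith⟩

theorem rho0SL_mem (N q : ℕ) (h : Nat.Coprime q N) : rho0SL N q h ∈ Gamma0 N := by
  rw [Gamma0_mem]
  simp [rho0SL]

/-- `ρ₀` as an element of `Γ₀(N)`. -/
def rho0 (N q : ℕ) (h : Nat.Coprime q N) : Gamma0 N := ⟨rho0SL N q h, rho0SL_mem N q h⟩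

/-- The Atkin-Lehner matrix `w = ρ₀ δ = [[q x, y], [N q, q]]` of determinant `q`. -/
noncomputable def wMat (N q : ℕ) (h : Nat.Coprime q N) : GL (Fin 2) ℝ :=
  incl N (rho0 N q h) * heckeDiagMatrix q

/-- Representatives of `Γ₀(Nq) \ Γ₀(N)`. -/
noncomputable def coresFam (N q : ℕ) (h : Nat.Coprime q N) : OnePoint (ZMod q) → GL (Fin 2) ℝ
  | ∞ => 1
  | (j : ZMod q) => incl N (rho0 N q h * transl N (j.val : ℤ))

theorem coresFam_infty (N q : ℕ) (h : Nat.Coprime q N) : coresFam N q h ∞ = 1 := rfl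

theorem coresFam_coe (N q : ℕ) (h : Nat.Coprime q N) (j : ZMod q) :
    coresFam N q h (j : OnePoint (ZMod q)) = incl N (rho0 N q h * transl N (j.val : ℤ)) := rfl


/-! ### Helper lemmas -/

theorem fam_mem_Gamma0 {N : ℕ} {g : SL(2, ℤ)} : g ∈ Gamma0 N ↔ (N : ℤ) ∣ g 1 0 := by
  rw [Gamma0_mem, ZMod.intCast_zmod_eq_zero_iff_dvd]

theorem fam_det (g : SL(2, ℤ)) : g 0 0 * g 1 1 - g 0 1 * g 1 0 = 1 := by
  have := g.det_coe
  rwa [Matrix.det_fin_two] at this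

theorem fam_bezout (N q : ℕ) (h : Nat.Coprime q N) :
    (q : ℤ) * Int.gcdA q N + (N : ℤ) * Int.gcdB q N = 1 := by
  have h1 := Int.gcd_eq_gcd_ab (q : ℤ) (N : ℤ)
  have h2 : Int.gcd (q : ℤ) (N : ℤ) = 1 := by simpa [Int.gcd_natCast_natCast] using h
  rw [h2] at h1
  push_cast at h1
  linarith

/-- The twist `δ γ δ⁻¹` of `γ ∈ Γ₀(Nq)`. -/
theorem fam_tw_exists (N q : ℕ) (hq : q ≠ 0) (γ : Gamma0 (N * q)) :
    ∃ (g : SL(2, ℤ)) (c' : ℤ), g 0 0 = (γ : SL(2, ℤ)) 0 0 ∧ g 0 1 = q * (γ : SL(2, ℤ)) 0 1 ∧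
      g 1 0 = N * c' ∧ g 1 1 = (γ : SL(2, ℤ)) 1 1 ∧
      heckeDiagMatrix q * incl (N * q) γ = mapGL ℝ g * heckeDiagMatrix q := by
  obtain ⟨c', hc'⟩ : ((N * q : ℕ) : ℤ) ∣ (γ : SL(2, ℤ)) 1 0 := fam_mem_Gamma0.1 γ.2
  have hdet := fam_det (γ : SL(2, ℤ))
  refine ⟨⟨!![(γ : SL(2, ℤ)) 0 0, q * (γ : SL(2, ℤ)) 0 1; N * c', (γ : SL(2, ℤ)) 1 1], ?_⟩, c',
    rfl, rfl, rfl, rfl, ?_⟩
  · rw [Matrix.det_fin_two_of]
    rw [hc'] at hdet
    push_cast at hdet
    linarith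
  · apply Units.ext
    rw [Units.val_mul, Units.val_mul, val_heckeDiagMatrix hq]
    have hc'' : (((γ : SL(2, ℤ)) 1 0 : ℤ) : ℝ) = (N : ℝ) * q * c' := by
      rw [hc']; push_cast; ring
    ext i j
    fin_cases i <;> fin_cases j <;>
      simp [Matrix.mul_apply, Fin.sum_univ_two, incl_apply, hc''] <;> ring

/-- `{1}` is a correspondence from `Γ₀(Nq)` to `Γ₀(N)`. -/
theorem isCorr_res (N q : ℕ) :
    IsCorr (incl (N * q)) (incl N) (fun _ : Unit => (1 : GL (Fin 2) ℝ)) := by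
  refine ⟨incl_injective N, fun _ _ _ _ => rfl, fun _ γ => ?_⟩
  have hc : ((N * q : ℕ) : ℤ) ∣ (γ : SL(2, ℤ)) 1 0 := fam_mem_Gamma0.1 γ.2
  refine ⟨(), ⟨γ, fam_mem_Gamma0.2 (Dvd.dvd.trans ⟨q, by push_cast; ring⟩ hc)⟩, ?_⟩
  simp [incl_apply]

/-- `{δ}` is a correspondence from `Γ₀(Nq)` to `Γ₀(N)`. -/
theorem isCorr_tw (N q : ℕ) :
    IsCorr (incl (N * q)) (incl N) (fun _ : Unit => heckeDiagMatrix q) := by
  by_cases hq : q = 0
  · subst hq
    simpa using isCorr_res N 0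
  refine ⟨incl_injective N, fun _ _ _ _ => rfl, fun _ γ => ?_⟩
  obtain ⟨g, c', -, -, h10, -, e⟩ := fam_tw_exists N q hq γ
  exact ⟨(), ⟨g, fam_mem_Gamma0.2 ⟨c', h10⟩⟩, e⟩

/-- `{w}` is a correspondence from `Γ₀(Nq)` to itself: `w γ w⁻¹ ∈ Γ₀(Nq)`. -/
theorem isCorr_al (N q : ℕ) (hq : q.Prime) (h : Nat.Coprime q N) :
    IsCorr (incl (N * q)) (incl (N * q)) (fun _ : Unit => wMat N q h) := by
  refine ⟨incl_injective _, fun _ _ _ _ => rfl, fun _ γ => ?_⟩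
  obtain ⟨g, c', h00, h01, h10, h11, e⟩ := fam_tw_exists N q hq.ne_zero γ
  refine ⟨(), ⟨rho0SL N q h * g * (rho0SL N q h)⁻¹, ?_⟩, ?_⟩
  · rw [fam_mem_Gamma0]
    refine ⟨(γ : SL(2, ℤ)) 0 0 + q * c' - N * (γ : SL(2, ℤ)) 0 1 - (γ : SL(2, ℤ)) 1 1, ?_⟩
    simp only [Matrix.SpecialLinearGroup.coe_mul, Matrix.SpecialLinearGroup.coe_inv,
      Matrix.adjugate_fin_two, Matrix.mul_apply, Fin.sum_univ_two]
    simp [rho0SL, h00, h01, h10, h11]
    ring
  · show incl N (rho0 N q h) * heckeDiagMatrix q * incl (N * q) γ = _ * (incl N (rho0 N q h) *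
      heckeDiagMatrix q)
    rw [mul_assoc, e, incl_apply, incl_apply]
    simp only [map_mul, map_inv, rho0]
    group

/-- Integral representatives of `Γ₀(Nq) \ Γ₀(N)`. -/
def fam_rep (N q : ℕ) (h : Nat.Coprime q N) : OnePoint (ZMod q) → SL(2, ℤ)
  | ∞ => 1
  | (j : ZMod q) => rho0SL N q h * ModularGroup.T ^ (j.val : ℤ)

theorem fam_coresFam_eq (N q : ℕ) (h : Nat.Coprime q N) (x : OnePoint (ZMod q)) :
    coresFam N q h x = mapGL ℝ (fam_rep N q h x) := by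
  induction x using OnePoint.rec with
  | infty => exact (map_one _).symm
  | coe j => rfl

theorem fam_rep_coe_val (N q : ℕ) (h : Nat.Coprime q N) (j : ZMod q) :
    (fam_rep N q h (j : OnePoint (ZMod q)) : Matrix (Fin 2) (Fin 2) ℤ) =
      !![Int.gcdA q N, Int.gcdA q N * j.val - Int.gcdB q N; (N : ℤ), N * j.val + q] := by
  show ((rho0SL N q h * ModularGroup.T ^ (j.val : ℤ) : SL(2, ℤ)) : Matrix (Fin 2) (Fin 2) ℤ) = _
  rw [Matrix.SpecialLinearGroup.coe_mul, ModularGroup.coe_T_zpow]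
  simp [rho0SL]
  ring

theorem fam_rep_mem (N q : ℕ) (h : Nat.Coprime q N) (x : OnePoint (ZMod q)) :
    fam_rep N q h x ∈ Gamma0 N := by
  induction x using OnePoint.rec with
  | infty => exact (Gamma0 N).one_mem
  | coe j =>
    rw [fam_mem_Gamma0, fam_rep_coe_val]
    simp



/-- `N` is invertible modulo `q`. -/
theorem fam_unit (N q : ℕ) (h : Nat.Coprime q N) :
    (N : ZMod q) * ((Int.gcdB q N : ℤ) : ZMod q) = 1 := by
  have := congrArg (Int.cast : ℤ → ZMod q) (fam_bezout N q h)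
  simpa using this

theorem fam_not_dvd_one {q : ℕ} (hq : q.Prime) : ¬ (q : ℤ) ∣ 1 := by
  intro hd
  have := Int.le_of_dvd one_pos hd
  have := hq.two_le
  omega

theorem fam_disj (N q : ℕ) (hq : q.Prime) (h : Nat.Coprime q N) (x y : OnePoint (ZMod q))
    (g : SL(2, ℤ)) (hg : ((N * q : ℕ) : ℤ) ∣ g 1 0)
    (e : fam_rep N q h x = g * fam_rep N q h y) : x = y := by
  have : NeZero q := ⟨hq.ne_zero⟩
  have hgq : (q : ℤ) ∣ g 1 0 := Dvd.dvd.trans ⟨N, by push_cast; ring⟩ hg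
  have hg0 : ((g 1 0 : ℤ) : ZMod q) = 0 := (ZMod.intCast_zmod_eq_zero_iff_dvd _ _).2 hgq
  have hu := fam_unit N q h
  have hdet := fam_det g
  have e' := congrArg (fun M : SL(2, ℤ) => (M : Matrix (Fin 2) (Fin 2) ℤ)) e
  simp only [Matrix.SpecialLinearGroup.coe_mul] at e'
  have e10 := congrFun (congrFun e' 1) 0
  have e11 := congrFun (congrFun e' 1) 1
  have hdetq := congrArg (Int.cast : ℤ → ZMod q) hdet
  push_cast at hdetq
  rw [hg0, mul_zero, sub_zero] at hdetq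
  induction x using OnePoint.rec with
  | infty =>
    induction y using OnePoint.rec with
    | infty => rfl
    | coe j =>
      exfalso
      rw [fam_rep_coe_val] at e10
      simp [fam_rep, Matrix.mul_apply, Fin.sum_univ_two] at e10
      have h1 := congrArg (Int.cast : ℤ → ZMod q) e10
      push_cast at h1
      rw [hg0, zero_mul, zero_add] at h1
      have h2 : ((g 1 1 : ℤ) : ZMod q) = 0 := by
        calc ((g 1 1 : ℤ) : ZMod q) = (g 1 1 : ZMod q) * ((N : ZMod q) * (Int.gcdB q N : ZMod q)) := by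
              rw [hu, mul_one]
          _ = 0 := by rw [← mul_assoc, ← h1, zero_mul]
      rw [h2, mul_zero] at hdetq
      have : Fact (1 < q) := ⟨hq.one_lt⟩
      exact zero_ne_one hdetq
  | coe i =>
    induction y using OnePoint.rec with
    | infty =>
      exfalso
      rw [fam_rep_coe_val] at e10
      simp [fam_rep] at e10
      have h1 := congrArg (Int.cast : ℤ → ZMod q) e10
      push_cast at h1
      rw [hg0] at h1
      rw [h1, zero_mul] at hu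
      have : Fact (1 < q) := ⟨hq.one_lt⟩
      exact zero_ne_one hu
    | coe j =>
      rw [fam_rep_coe_val, fam_rep_coe_val] at e10 e11
      simp [Matrix.mul_apply, Fin.sum_univ_two] at e10 e11
      have h1 := congrArg (Int.cast : ℤ → ZMod q) e10
      have h2 := congrArg (Int.cast : ℤ → ZMod q) e11
      push_cast at h1 h2
      rw [hg0, zero_mul, zero_add] at h1 h2
      simp only [CharP.cast_eq_zero, add_zero] at h2
      have h3 : ((g 1 1 : ℤ) : ZMod q) = 1 := by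
        calc ((g 1 1 : ℤ) : ZMod q) = (g 1 1 : ZMod q) * ((N : ZMod q) * (Int.gcdB q N : ZMod q)) := by
              rw [hu, mul_one]
          _ = 1 := by rw [← mul_assoc, ← h1, hu]
      rw [h3, one_mul] at h2
      congr 1
      calc i = ((N : ZMod q) * (Int.gcdB q N : ZMod q)) * i := by rw [hu, one_mul]
        _ = (Int.gcdB q N : ZMod q) * ((N : ZMod q) * i) := by ring
        _ = (Int.gcdB q N : ZMod q) * ((N : ZMod q) * j) := by rw [h2]
        _ = ((N : ZMod q) * (Int.gcdB q N : ZMod q)) * j := by ring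
        _ = j := by rw [hu, one_mul]

theorem fam_stable (N q : ℕ) (hq : q.Prime) (h : Nat.Coprime q N) (M : SL(2, ℤ))
    (hM : (N : ℤ) ∣ M 1 0) :
    ∃ y : OnePoint (ZMod q), ((N * q : ℕ) : ℤ) ∣ (M * (fam_rep N q h y)⁻¹) 1 0 := by
  have : Fact q.Prime := ⟨hq⟩
  have hu := fam_unit N q h
  obtain ⟨c₁, hc₁⟩ := hM
  by_cases hqc : (q : ℤ) ∣ c₁
  · refine ⟨∞, ?_⟩
    obtain ⟨c₂, rfl⟩ := hqc
    refine ⟨c₂, ?_⟩
    simp [fam_rep, hc₁]
    ring
  · have hc0 : ((c₁ : ℤ) : ZMod q) ≠ 0 := fun h0 =>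
      hqc ((ZMod.intCast_zmod_eq_zero_iff_dvd _ _).1 h0)
    set j : ZMod q := (M 1 1 : ZMod q) * (Int.gcdB q N : ZMod q) * ((c₁ : ℤ) : ZMod q)⁻¹ with hj
    obtain ⟨k, hk⟩ : (q : ℤ) ∣ c₁ * (N * j.val + q) - M 1 1 := by
      rw [← ZMod.intCast_zmod_eq_zero_iff_dvd]
      push_cast
      simp only [ZMod.natCast_val, ZMod.cast_id', id_eq, CharP.cast_eq_zero, add_zero]
      rw [hj]
      calc ((c₁ : ℤ) : ZMod q) * ((N : ZMod q) * ((M 1 1 : ZMod q) * (Int.gcdB q N : ZMod q) *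
            ((c₁ : ℤ) : ZMod q)⁻¹)) - (M 1 1 : ZMod q)
          = (((c₁ : ℤ) : ZMod q) * ((c₁ : ℤ) : ZMod q)⁻¹) *
              ((N : ZMod q) * (Int.gcdB q N : ZMod q)) * (M 1 1 : ZMod q) - (M 1 1 : ZMod q) := by
            ring
        _ = 0 := by rw [mul_inv_cancel₀ hc0, hu]; ring
    refine ⟨(j : OnePoint (ZMod q)), k, ?_⟩
    simp only [Matrix.SpecialLinearGroup.coe_mul, Matrix.SpecialLinearGroup.coe_inv,
      Matrix.adjugate_fin_two, Matrix.mul_apply, Fin.sum_univ_two, fam_rep_coe_val]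
    simp [hc₁, -ZMod.natCast_val]
    linear_combination (N : ℤ) * hk

/-- `{1} ∪ {ρ₀ T^j}` is a correspondence from `Γ₀(N)` to `Γ₀(Nq)` (`q` prime, `q ∤ N`). -/
theorem isCorr_cores (N q : ℕ) (hq : q.Prime) (h : Nat.Coprime q N) :
    IsCorr (incl N) (incl (N * q)) (coresFam N q h) := by
  refine ⟨incl_injective _, fun x y g e => ?_, fun x γ => ?_⟩
  · rw [fam_coresFam_eq, fam_coresFam_eq, incl_apply, ← map_mul] at e
    exact fam_disj N q hq h x y g (fam_mem_Gamma0.1 g.2) (mapGL_injective e)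
  · have hM : fam_rep N q h x * (γ : SL(2, ℤ)) ∈ Gamma0 N :=
      (Gamma0 N).mul_mem (fam_rep_mem N q h x) γ.2
    obtain ⟨y, hy⟩ := fam_stable N q hq h _ (fam_mem_Gamma0.1 hM)
    refine ⟨y, ⟨_, fam_mem_Gamma0.2 hy⟩, ?_⟩
    rw [fam_coresFam_eq, fam_coresFam_eq, incl_apply, incl_apply, ← map_mul, ← map_mul]
    congr 1
    simp

end Fermat.Agent.S41
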