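import Fermat.Agent.S41.Fam
import Fermat.Agent.Lib.HeckeHom.Faithful

/-!
# S41: level changing operators on `Hom(Γ₀(·), A)`  (owner: helper140)

`res, tw : Hom(Γ₀(N), A) → Hom(Γ₀(Nq), A)`, `cores : Hom(Γ₀(Nq), A) → Hom(Γ₀(N), A)`,
`al : Hom(Γ₀(Nq), A) → Hom(Γ₀(Nq), A)` (Atkin-Lehner at `q`).
-/

set_option autoImplicit false

open Matrix.SpecialLinearGroup CongruenceSubgroup ModularForm
open scoped MatrixGroups OnePoint

namespace Fermat.Agent.S41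

open Fermat.Agent.Lib.HeckeHom

variable {A : Type*} [AddCommGroup A]

/-- Restriction `ψ ↦ ψ|Γ₀(Nq)`. -/
noncomputable def res (N q : ℕ) :
    (Additive (Gamma0 N) →+ A) →+ (Additive (Gamma0 (N * q)) →+ A) :=
  (isCorr_res N q).corrHom

/-- Twisted restriction `ψ ↦ (γ ↦ ψ (δ γ δ⁻¹))`, `δ = diag(q, 1)`. -/
noncomputable def tw (N q : ℕ) :
    (Additive (Gamma0 N) →+ A) →+ (Additive (Gamma0 (N * q)) →+ A) :=
  (isCorr_tw N q).corrHom

/-- The Atkin-Lehner operator `ψ ↦ (γ ↦ ψ (w γ w⁻¹))`. -/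
noncomputable def al (N q : ℕ) (hq : q.Prime) (h : Nat.Coprime q N) :
    (Additive (Gamma0 (N * q)) →+ A) →+ (Additive (Gamma0 (N * q)) →+ A) :=
  (isCorr_al N q hq h).corrHom

/-- Corestriction (transfer) from `Γ₀(Nq)` to `Γ₀(N)`. -/
noncomputable def cores (N q : ℕ) (hq : q.Prime) (h : Nat.Coprime q N) :
    (Additive (Gamma0 (N * q)) →+ A) →+ (Additive (Gamma0 N) →+ A) :=
  haveI : Fact q.Prime := ⟨hq⟩
  (isCorr_cores N q hq h).corrHom

/-- Evaluation of a one-element correspondence. -/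
theorem IsCorr.corrHom_unit_apply {Γ₁ Γ₂ G : Type*} [Group Γ₁] [Group Γ₂] [Group G]
    {φ₁ : Γ₁ →* G} {φ₂ : Γ₂ →* G} {a : G} (h : IsCorr φ₁ φ₂ (fun _ : Unit => a))
    (ψ : Additive Γ₂ →+ A) {γ : Γ₁} {γ' : Γ₂} (e : a * φ₁ γ = φ₂ γ' * a) :
    h.corrHom ψ (Additive.ofMul γ) = ψ (Additive.ofMul γ') := by
  rw [h.corrHom_apply]
  simp only [Finset.univ_unique, Finset.sum_singleton]
  rw [h.coc_eq (j := ()) e]

theorem res_apply (N q : ℕ) (ψ : Additive (Gamma0 N) →+ A) {γ : Gamma0 (N * q)} {γ' : Gamma0 N}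
    (e : (γ : SL(2, ℤ)) = (γ' : SL(2, ℤ))) :
    res N q ψ (Additive.ofMul γ) = ψ (Additive.ofMul γ') := by
  refine (isCorr_res N q).corrHom_unit_apply ψ ?_
  rw [one_mul, mul_one, incl_apply, incl_apply, e]

theorem tw_apply (N q : ℕ) (ψ : Additive (Gamma0 N) →+ A) {γ : Gamma0 (N * q)} {γ' : Gamma0 N}
    (e : heckeDiagMatrix q * incl (N * q) γ = incl N γ' * heckeDiagMatrix q) :
    tw N q ψ (Additive.ofMul γ) = ψ (Additive.ofMul γ') :=
  (isCorr_tw N q).corrHom_unit_apply ψ e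

theorem al_apply (N q : ℕ) (hq : q.Prime) (h : Nat.Coprime q N)
    (ψ : Additive (Gamma0 (N * q)) →+ A) {γ γ' : Gamma0 (N * q)}
    (e : wMat N q h * incl (N * q) γ = incl (N * q) γ' * wMat N q h) :
    al N q hq h ψ (Additive.ofMul γ) = ψ (Additive.ofMul γ') :=
  (isCorr_al N q hq h).corrHom_unit_apply ψ e

end Fermat.Agent.S41
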