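import Mathlib

/-!
# S41: correspondences between two groups acting on `Hom(Γ, A)`  (owner: helper140)

Two-group version of `Lib/HeckeHom/Abstract.lean`.  Let `φ₁ : Γ₁ →* G`, `φ₂ : Γ₂ →* G` (`φ₂`
injective) and let `α : ι → G` be a finite family such that the cosets `φ₂(Γ₂) α i` are pairwise
distinct and their union is stable under right multiplication by `φ₁(Γ₁)`.  Then
`α i * φ₁ γ = φ₂ (coc γ i) * α (perm γ i)` and `ψ ↦ (γ ↦ ∑ i, ψ (coc γ i))` is a homomorphism
`Hom(Γ₂, A) → Hom(Γ₁, A)`.  Restriction, conjugation, corestriction and Hecke operators are all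
of this shape.
-/

set_option autoImplicit false

namespace Fermat.Agent.S41

variable {Γ₁ Γ₂ G ι : Type*} [Group Γ₁] [Group Γ₂] [Group G]

/-- `α` is a system of representatives of a correspondence from `Γ₁` to `Γ₂`. -/
structure IsCorr (φ₁ : Γ₁ →* G) (φ₂ : Γ₂ →* G) (α : ι → G) : Prop where
  inj : Function.Injective φ₂
  disj : ∀ (i j : ι) (g : Γ₂), α i = φ₂ g * α j → i = j
  stable : ∀ (i : ι) (γ : Γ₁), ∃ (j : ι) (g : Γ₂), α i * φ₁ γ = φ₂ g * α j

namespace IsCorr

variable {φ₁ : Γ₁ →* G} {φ₂ : Γ₂ →* G} {α : ι → G} (h : IsCorr φ₁ φ₂ α)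
include h

/-- The index `j` with `α i * φ₁ γ ∈ φ₂(Γ₂) α j`. -/
noncomputable def perm (γ : Γ₁) (i : ι) : ι := (h.stable i γ).choose

/-- The element `g` with `α i * φ₁ γ = φ₂ g * α (perm γ i)`. -/
noncomputable def coc (γ : Γ₁) (i : ι) : Γ₂ := (h.stable i γ).choose_spec.choose

theorem spec (γ : Γ₁) (i : ι) : α i * φ₁ γ = φ₂ (h.coc γ i) * α (h.perm γ i) :=
  (h.stable i γ).choose_spec.choose_spec

theorem unique {γ : Γ₁} {i j : ι} {g : Γ₂} (e : α i * φ₁ γ = φ₂ g * α j) :
    j = h.perm γ i ∧ g = h.coc γ i := by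
  have e' := h.spec γ i
  have hj : j = h.perm γ i := by
    refine h.disj j (h.perm γ i) (g⁻¹ * h.coc γ i) ?_
    rw [map_mul, map_inv, mul_assoc, ← e', e, inv_mul_cancel_left]
  refine ⟨hj, h.inj ?_⟩
  subst hj
  exact mul_right_cancel (e.symm.trans e')

theorem perm_eq {γ : Γ₁} {i j : ι} {g : Γ₂} (e : α i * φ₁ γ = φ₂ g * α j) : h.perm γ i = j :=
  (h.unique e).1.symm

theorem coc_eq {γ : Γ₁} {i j : ι} {g : Γ₂} (e : α i * φ₁ γ = φ₂ g * α j) : h.coc γ i = g :=
  (h.unique e).2.symm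

theorem mul_aux (γ δ : Γ₁) (i : ι) :
    α i * φ₁ (γ * δ) = φ₂ (h.coc γ i * h.coc δ (h.perm γ i)) * α (h.perm δ (h.perm γ i)) := by
  rw [map_mul, ← mul_assoc, h.spec γ i, mul_assoc, h.spec δ (h.perm γ i), map_mul, mul_assoc]

theorem perm_mul (γ δ : Γ₁) (i : ι) : h.perm (γ * δ) i = h.perm δ (h.perm γ i) :=
  h.perm_eq (h.mul_aux γ δ i)

theorem coc_mul (γ δ : Γ₁) (i : ι) :
    h.coc (γ * δ) i = h.coc γ i * h.coc δ (h.perm γ i) :=
  h.coc_eq (h.mul_aux γ δ i)

theorem perm_one (i : ι) : h.perm 1 i = i := h.perm_eq (g := 1) (by simp)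

theorem coc_one (i : ι) : h.coc 1 i = 1 := h.coc_eq (j := i) (by simp)

/-- `perm γ` as a permutation of the index set. -/
noncomputable def permEquiv (γ : Γ₁) : Equiv.Perm ι where
  toFun := h.perm γ
  invFun := h.perm γ⁻¹
  left_inv i := by rw [← h.perm_mul, mul_inv_cancel, h.perm_one]
  right_inv i := by rw [← h.perm_mul, inv_mul_cancel, h.perm_one]

@[simp] theorem permEquiv_apply (γ : Γ₁) (i : ι) : h.permEquiv γ i = h.perm γ i := rfl

variable [Fintype ι] {A B : Type*} [AddCommGroup A] [AddCommGroup B]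

/-- The operator `Hom(Γ₂, A) → Hom(Γ₁, A)` attached to a correspondence. -/
noncomputable def corrHom : (Additive Γ₂ →+ A) →+ (Additive Γ₁ →+ A) where
  toFun ψ :=
    { toFun := fun γ => ∑ i, ψ (Additive.ofMul (h.coc (Additive.toMul γ) i))
      map_zero' := by
        simp only [toMul_zero, h.coc_one, ofMul_one, map_zero, Finset.sum_const_zero]
      map_add' := fun γ δ => by
        simp only [toMul_add, h.coc_mul, ofMul_mul, map_add, Finset.sum_add_distrib]
        congr 1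
        exact Equiv.sum_comp (h.permEquiv (Additive.toMul γ))
          (fun i => ψ (Additive.ofMul (h.coc (Additive.toMul δ) i))) }
  map_zero' := by
    refine AddMonoidHom.ext fun γ => ?_
    simp
  map_add' ψ ψ' := by
    refine AddMonoidHom.ext fun γ => ?_
    simp [Finset.sum_add_distrib]

theorem corrHom_apply (ψ : Additive Γ₂ →+ A) (γ : Γ₁) :
    h.corrHom ψ (Additive.ofMul γ) = ∑ i, ψ (Additive.ofMul (h.coc γ i)) := rfl

/-- Naturality in the coefficient group. -/
theorem corrHom_comp (g : A →+ B) (ψ : Additive Γ₂ →+ A) :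
    h.corrHom (g.comp ψ) = g.comp (h.corrHom ψ) := by
  refine AddMonoidHom.ext fun γ => ?_
  obtain ⟨γ, rfl⟩ := Additive.ofMul.surjective γ
  simp [corrHom_apply]

end IsCorr

end Fermat.Agent.S41
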