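import Mathlib

/-!
# S41, block I (Ihara's lemma), arithmetic core: definitions

`s a c` should be thought of as `ψ γ`, where `ψ : Γ₀(N) → F` is a parabolic homomorphism and `γ` is
any element of `Γ₀(N)` with first column `(a, c)`.  See report #1173 (helper140).
-/

set_option autoImplicit false

namespace Fermat.Agent.S41.IharaCore

/-- The four properties of the symbol used in the proof of Ihara's lemma:
translation invariance in `a` (P1), in `c` (P2), invariance under multiplication of `a` by `Q` (P3),
and the `T_ℓ`-eigenvector property at denominators divisible by `ℓ` (P5). -/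
structure IsIharaSymbol {F : Type*} [Field F] (N Q ℓ : ℕ) (lam : F) (s : ℤ → ℤ → F) : Prop where
  add_left : ∀ a c : ℤ, IsCoprime a c → (N : ℤ) ∣ c → s (a + c) c = s a c
  add_right : ∀ a c : ℤ, IsCoprime a c → (N : ℤ) ∣ c → s a (c + N * a) = s a c
  mul_Q : ∀ a c : ℤ, IsCoprime a c → (N : ℤ) ∣ c → IsCoprime (Q : ℤ) c → s (Q * a) c = s a c
  hecke : ∀ a c : ℤ, IsCoprime a (ℓ * c) → (N : ℤ) ∣ c →
    lam * s a (ℓ * c) = s a c + ∑ j ∈ Finset.range ℓ, s (a + j * (ℓ * c)) (ℓ * (ℓ * c))

end Fermat.Agent.S41.IharaCore
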