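import Fermat.Agent.S41.Glue.MulQ
import Fermat.Agent.S41.Glue.Hecke
import Fermat.Agent.S41.Glue.Factor
import Fermat.Agent.S41.Ihara.Core

/-!
# S41: Ihara's lemma for eigenvectors  (owner: helper140)
-/

set_option autoImplicit false

open Matrix.SpecialLinearGroup CongruenceSubgroup ModularForm
open scoped MatrixGroups

namespace Fermat.Agent.S41

open Fermat.Agent.Lib.HeckeHom Fermat.Agent.S16.Lift Fermat.Agent.S41.Glue IharaCore

/-- **Ihara's lemma** (eigenvector form).  Let `F` be a field of characteristic `p`.  If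
`(ψ₁, ψ₂) ∈ Hom_{par,ell}(Γ₀(N), F)²` is in the kernel of `res + tw`, `ψ₁ ≠ 0` and
`T_ℓ ψ₁ = lam ψ₁` for an odd prime `ℓ ∤ N q`, then `lam = 1 + ℓ`. -/
theorem ihara {N q p ℓ : ℕ} [NeZero N] {F : Type*} [Field F] [CharP F p] (hp : p.Prime)
    (hq : q.Prime) (hqN : ¬ q ∣ N) (hℓ : ℓ.Prime) (hℓ2 : ℓ ≠ 2) (hℓN : ¬ ℓ ∣ N) (hℓq : ℓ ≠ q)
    {ψ₁ ψ₂ : Additive (Gamma0 N) →+ F} (h₁ : ψ₁ ∈ homPE N F) (h₂ : ψ₂ ∈ homPE N F)
    (hker : res N q ψ₁ + tw N q ψ₂ = 0) (lam : F)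
    (heig : ∀ γ : Gamma0 N, heckeHomT hℓ hℓN ψ₁ (Additive.ofMul γ) = lam * ψ₁ (Additive.ofMul γ))
    (hne : ψ₁ ≠ 0) : lam = 1 + (ℓ : F) := by
  have hcop : Nat.Coprime q N := (Nat.Prime.coprime_iff_not_dvd hq).mpr hqN
  by_cases hk : ∀ γ : Gamma0 N, (N : ℤ) ∣ (γ : SL(2, ℤ)) 0 0 - 1 → ψ₁ (Additive.ofMul γ) = 0
  · -- Step 0
    have h := heckeHomT_of_kills hℓ hℓN ψ₁ hk
    obtain ⟨γ, hγ⟩ : ∃ γ : Gamma0 N, ψ₁ (Additive.ofMul γ) ≠ 0 := by
      by_contra hcon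
      push Not at hcon
      apply hne
      refine AddMonoidHom.ext fun γ => ?_
      obtain ⟨γ, rfl⟩ := Additive.ofMul.surjective γ
      simpa using hcon γ
    have h2 := heig γ
    rw [h] at h2
    have h3 : ((ℓ + 1 : ℕ) • ψ₁) (Additive.ofMul γ) = ((ℓ : F) + 1) * ψ₁ (Additive.ofMul γ) := by
      rw [AddMonoidHom.nsmul_apply, nsmul_eq_mul]
      push_cast
      ring
    rw [h3] at h2
    have := mul_right_cancel₀ hγ h2
    rw [← this]; ring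
  · push Not at hk
    obtain ⟨γ, hγ1, hγ⟩ := hk
    set a := (γ : SL(2, ℤ)) 0 0 with ha
    set c := (γ : SL(2, ℤ)) 1 0 with hc
    have hNc : (N : ℤ) ∣ c := (ZMod.intCast_zmod_eq_zero_iff_dvd _ _).mp (Gamma0_mem.mp γ.2)
    have hac : IsCoprime a c := by
      have hdet := Matrix.SpecialLinearGroup.det_coe (γ : SL(2, ℤ))
      rw [Matrix.det_fin_two] at hdet
      exact ⟨(γ : SL(2, ℤ)) 1 1, -(γ : SL(2, ℤ)) 0 1, by rw [ha, hc]; linarith⟩
    have hpF : ∀ x : F, p • x = 0 := fun x => by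
      rw [nsmul_eq_mul, CharP.cast_eq_zero, zero_mul]
    have hsym : IsIharaSymbol N (q ^ (2 * p)) ℓ lam (sym N ψ₁) :=
      { add_left := sym_add_left h₁
        add_right := sym_add_right h₁
        mul_Q := fun a c hac hc hQ => sym_Q_mul hcop h₁ h₂ hker p hpF a c hac hc hQ
        hecke := by
          intro a c hac hc
          obtain ⟨g, hg0, hg1⟩ := exists_firstCol (N := N) hac (Dvd.dvd.mul_left hc _)
          rw [← heckeHomT_apply_of_dvd hℓ hℓN h₁ a c hac hc g hg0 hg1, heig g, ← sym_eq h₁ g,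
            hg0, hg1] }
    have hQ1 : 1 < q ^ (2 * p) := Nat.one_lt_pow (by have := hp.pos; omega) hq.one_lt
    have hQN : Nat.Coprime (q ^ (2 * p)) N := Nat.Coprime.pow_left _ hcop
    have hℓQ : ¬ ℓ ∣ q ^ (2 * p) := fun h =>
      hℓq ((Nat.prime_dvd_prime_iff_eq hℓ hq).mp (hℓ.dvd_of_dvd_pow h))
    refine hsym.eq_one_add (Nat.pos_of_ne_zero (NeZero.ne N)) hQ1 hQN hℓ hℓ2 hℓN hℓQ
      (a := -a) (c := -c) hac.neg_neg ((dvd_neg).mpr hNc) ?_ ?_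
    · have : -a + 1 = -(a - 1) := by ring
      rw [this]; exact (dvd_neg).mpr hγ1
    · rw [sym_neg h₁ a c hac hNc, ha, hc, sym_eq h₁ γ]
      exact hγ

end Fermat.Agent.S41
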