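import Fermat.Agent.S41.Kappa.Bridge
import Fermat.Agent.S41.PD3.Main
import Fermat.Agent.S41.PD.Bilin
import Fermat.Agent.S41.LC.Stable

/-!
# S41: PD3 (adjunction `res`/`cores`) and PD4 (Atkin-Lehner isometry) for the pairing `pd`
(owner: helper140)

Exactly the statements of the interface `S41/PD/Main.lean`, proved from `PD3/Main.lean`
(`omega3_res_cores`), `Kappa/Bridge.lean` (`pd_al`), `PD/Bilin.lean` (`pd_eq`) and `LC/Stable.lean`.
-/

set_option autoImplicit false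

open CongruenceSubgroup Matrix Matrix.SpecialLinearGroup ModularGroup
open scoped MatrixGroups

namespace Fermat.Agent.S41.PD34

open Fermat.Agent.S41.PD Fermat.Agent.Lib.HeckeHom

variable (M : ℕ) [NeZero M]

/-- PD3: `res` and `cores` are adjoint. -/
theorem pd_res_cores {ℓ : ℕ} (hℓ : ℓ.Prime) (h : Nat.Coprime ℓ M) [NeZero (M * ℓ)]
    {x : Additive (Gamma0 M) →+ ℤ} (hx : x ∈ Lam M)
    {y : Additive (Gamma0 (M * ℓ)) →+ ℤ} (hy : y ∈ Lam (M * ℓ)) :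
    pd (M * ℓ) (res M ℓ x) y = pd M x (cores M ℓ hℓ h y) := by
  have : Fact ℓ.Prime := ⟨hℓ⟩
  have hu := PD.isCuspPot_potOf hx
  have hv := PD.isCuspPot_potOf hy
  have hu' : IsCuspPot (M * ℓ) (potOf M x) (res M ℓ x) := PD3.isCuspPot_res hu
  have hv' := PD3.isCuspPot_cores hℓ h hv
  have key := PD3.omega3_res_cores M ℓ hℓ h hu hv
  rw [Kappa.omega3_eq (Kappa.isManin_manin hu') (Kappa.isManin_manin hv),
    Kappa.omega3_eq (Kappa.isManin_manin hu) (Kappa.isManin_manin hv')] at key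
  rw [PD.pd_eq (LC.res_mem_Lam hx) hy hu' hv, PD.pd_eq hx (LC.cores_mem_Lam hℓ h hy) hu hv']
  linarith

/-- PD4: the Atkin–Lehner operator is an isometry. -/
theorem pd_al {ℓ : ℕ} (hℓ : ℓ.Prime) (h : Nat.Coprime ℓ M) [NeZero (M * ℓ)]
    {x y : Additive (Gamma0 (M * ℓ)) →+ ℤ} (hx : x ∈ Lam (M * ℓ)) (hy : y ∈ Lam (M * ℓ)) :
    pd (M * ℓ) (al M ℓ hℓ h x) (al M ℓ hℓ h y) = pd (M * ℓ) x y :=
  Kappa.pd_al M ℓ hℓ h hx hy (LC.al_mem_Lam hℓ h hx) (LC.al_mem_Lam hℓ h hy)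

end Fermat.Agent.S41.PD34
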