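import Fermat.Agent.S41.PD34
import Fermat.Agent.S41.PD.Nondeg

/-!
# S41: the five interface statements on the pairing `pd`, PROVED  (owner: helper140)

Same statements as the stubs of `S41/PD/Main.lean`, but in the namespace `Fermat.Agent.S41.Ribet`
(no clash with `PD.pd_add_left`, `PD.pd_swap` of `PD/Bilin.lean`); inside
`namespace Fermat.Agent.S41.Ribet` these names take priority over the opened namespace `PD`, so
`S41/Ribet.lean` compiles unchanged once it imports this file in place of `PD/Main.lean`.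
-/

set_option autoImplicit false

open CongruenceSubgroup Matrix.SpecialLinearGroup
open scoped MatrixGroups
open Fermat.Agent.Lib.HeckeHom

namespace Fermat.Agent.S41.Ribet

open Fermat.Agent.S41.PD

variable (M : ℕ) [NeZero M]

/-- PD1 -/
theorem pd_add_left {x x' y : Additive (Gamma0 M) →+ ℤ} (hx : x ∈ Lam M) (hx' : x' ∈ Lam M)
    (hy : y ∈ Lam M) : pd M (x + x') y = pd M x y + pd M x' y :=
  PD.pd_add_left hx hx' hy

/-- PD1' -/
theorem pd_swap (x y : Additive (Gamma0 M) →+ ℤ) : pd M y x = - pd M x y :=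
  PD.pd_swap

/-- PD2: nondegenerate modulo every odd prime. -/
theorem pd_nondeg {p : ℕ} (hp : p.Prime) (hp2 : p ≠ 2) {x : Additive (Gamma0 M) →+ ℤ}
    (hx : x ∈ Lam M) (h : ∀ y ∈ Lam M, (p : ℤ) ∣ pd M x y) : ∃ w ∈ Lam M, x = p • w := by
  have : Fact p.Prime := ⟨hp⟩
  obtain ⟨w, hw⟩ := PD.pdL_nondegenerate_left p hp2 (⟨x, hx⟩ : Lam M) (fun y => h y.1 y.2)
  exact ⟨w.1, w.2, congrArg Subtype.val hw⟩

/-- PD3: `res` and `cores` are adjoint. -/
theorem pd_res_cores {ℓ : ℕ} (hℓ : ℓ.Prime) (h : Nat.Coprime ℓ M) [NeZero (M * ℓ)]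
    {x : Additive (Gamma0 M) →+ ℤ} (hx : x ∈ Lam M)
    {y : Additive (Gamma0 (M * ℓ)) →+ ℤ} (hy : y ∈ Lam (M * ℓ)) :
    pd (M * ℓ) (res M ℓ x) y = pd M x (cores M ℓ hℓ h y) :=
  PD34.pd_res_cores M hℓ h hx hy

/-- PD4: the Atkin–Lehner operator is an isometry. -/
theorem pd_al {ℓ : ℕ} (hℓ : ℓ.Prime) (h : Nat.Coprime ℓ M) [NeZero (M * ℓ)]
    {x y : Additive (Gamma0 (M * ℓ)) →+ ℤ} (hx : x ∈ Lam (M * ℓ)) (hy : y ∈ Lam (M * ℓ)) :
    pd (M * ℓ) (al M ℓ hℓ h x) (al M ℓ hℓ h y) = pd (M * ℓ) x y :=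
  PD34.pd_al M hℓ h hx hy

end Fermat.Agent.S41.Ribet
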