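import Fermat.Agent.S41.RibetCore
import Fermat.Agent.S41.PD.Nondeg
import Fermat.Agent.S41.PD34

/-!
# S41, block RIBET: Ribet's level raising on the lattices  (owner: helper188)

`ribet` is the statement `RibetStatement` of `S41/Top.lean`.
-/

set_option autoImplicit false

open Matrix.SpecialLinearGroup CongruenceSubgroup ModularForm
open scoped MatrixGroups OnePoint

namespace Fermat.Agent.S41.Ribet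

open Fermat.Agent.Lib.HeckeHom Fermat.Agent.S41.LC Fermat.Agent.S41.PD

section pdL

variable (M : ℕ) [NeZero M]

theorem pdL_anti (x y : Lam M) : pdL M x y = - pdL M y x := pdL_swap y x

theorem pdL_nondeg {p : ℕ} (hp : p.Prime) (hp2 : p ≠ 2) (x : Lam M)
    (h : ∀ y, (p : ℤ) ∣ pdL M x y) : ∃ x' : Lam M, x = p • x' :=
  haveI : Fact p.Prime := ⟨hp⟩
  pdL_nondegenerate_left p hp2 x h

theorem pdL_adj {ℓ : ℕ} (hℓ : ℓ.Prime) (h : Nat.Coprime ℓ M) [NeZero (M * ℓ)] (x : Lam M)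
    (y : Lam (M * ℓ)) : pdL (M * ℓ) (resL M ℓ x) y = pdL M x (coresL M ℓ hℓ h y) :=
  PD34.pd_res_cores M hℓ h x.2 y.2

theorem pdL_al {ℓ : ℕ} (hℓ : ℓ.Prime) (h : Nat.Coprime ℓ M) [NeZero (M * ℓ)]
    (x y : Lam (M * ℓ)) :
    pdL (M * ℓ) (alL M ℓ hℓ h x) (alL M ℓ hℓ h y) = pdL (M * ℓ) x y :=
  PD34.pd_al M hℓ h x.2 y.2

end pdL

/-- **Ribet's level raising on the lattices.** -/
theorem ribet {p N q : ℕ} [NeZero N] [NeZero (N * q)] (hp : p.Prime) (hp2 : p ≠ 2) (hq : q.Prime)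
    (hqN : ¬ q ∣ N) (_hqp : q ≠ p) (a : ℕ → ℤ) (P : ℕ → Prop)
    (hNE : ∃ ℓ₀ : ℕ, ℓ₀.Prime ∧ ℓ₀ ≠ 2 ∧ ¬ ℓ₀ ∣ N * q ∧ ℓ₀ ≠ p ∧ P ℓ₀ ∧
      ¬ (p : ℤ) ∣ ((ℓ₀ : ℤ) + 1 - a ℓ₀))
    (x₀ : Lam N) (ε : ℤ) (hx₀ : ¬ ∃ y : Lam N, x₀ = p • y) (hε : ε = 1 ∨ ε = -1)
    (hT : ∀ (ℓ : ℕ) (hℓ : ℓ.Prime) (hℓN : ¬ ℓ ∣ N), P ℓ →
      ∃ y : Lam N, heckeHomT hℓ hℓN x₀.1 - a ℓ • x₀.1 = p • y.1)
    (hTq : ∃ y : Lam N, heckeHomT hq hqN x₀.1 - (ε * ((q : ℤ) + 1)) • x₀.1 = p • y.1) :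
    ∃ x : Lam (N * q), (¬ ∃ y : Lam (N * q), x = p • y) ∧
      heckeHomU (Dvd.intro_left N rfl) (heckeHomU (Dvd.intro_left N rfl) x.1) = x.1 ∧
      ∀ (ℓ : ℕ) (hℓ : ℓ.Prime) (hℓM : ¬ ℓ ∣ N * q), P ℓ →
        ∃ y : Lam (N * q), heckeHomT hℓ hℓM x.1 - a ℓ • x.1 = p • y.1 := by
  obtain ⟨ℓ₀, hℓ₀, hℓ₀2, hℓ₀M, -, hPℓ₀, hne⟩ := hNE
  have hℓ₀N : ¬ ℓ₀ ∣ N := fun hd => hℓ₀M (Dvd.dvd.mul_right hd q)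
  have hℓ₀q : ℓ₀ ≠ q := fun e => hℓ₀M (e ▸ Dvd.intro_left N rfl)
  have hcop : Nat.Coprime q N := (Nat.Prime.coprime_iff_not_dvd hq).mpr hqN
  have hcop₀ : Nat.Coprime ℓ₀ N := (Nat.Prime.coprime_iff_not_dvd hℓ₀).mpr hℓ₀N
  have : NeZero (N * ℓ₀) := ⟨Nat.mul_ne_zero (NeZero.ne N) hℓ₀.ne_zero⟩
  exact ribet_core hp hq hqN hcop (pdL N) (pdL (N * q)) (pdL_nondeg N hp hp2)
    (pdL_nondeg (N * q) hp hp2) (pdL_adj N hq hcop) (pdL_al N hq hcop) a P hℓ₀ hℓ₀2 hℓ₀N hℓ₀q hPℓ₀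
    hne (TL_selfadjoint hℓ₀ hℓ₀N hcop₀ (pdL N) (pdL (N * ℓ₀)) (pdL_anti N) (pdL_anti (N * ℓ₀))
      (pdL_adj N hℓ₀ hcop₀) (pdL_al N hℓ₀ hcop₀)) x₀ ε hx₀ hε hT hTq

end Fermat.Agent.S41.Ribet
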