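import Fermat.Agent.S41.Abs.Total
import Fermat.Agent.S41.LC.Lat
import Fermat.Agent.S41.IharaGlue

/-!
# S41, block RIBET: instantiation of the abstract argument, the pairings being hypotheses
(owner: helper188)
-/

set_option autoImplicit false

open Matrix.SpecialLinearGroup CongruenceSubgroup ModularForm
open scoped MatrixGroups OnePoint

namespace Fermat.Agent.S41.Ribet

open Fermat.Agent.Lib.HeckeHom Fermat.Agent.S41.LC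
open Fermat.Agent.S16.Lift (castTo castTo_apply homPE mem_homPE)

/-! ### Reduction modulo `p` -/

section red

variable {M : ℕ} {p : ℕ}

theorem castTo_eq_zero_iff (x : Lam M) :
    castTo (ZMod p) x.1 = 0 ↔ ∃ y : Lam M, x = p • y := by
  rw [← redHom_eq_zero_iff]
  constructor
  · intro h; exact Subtype.ext h
  · intro h; exact congrArg Subtype.val h

theorem castTo_nsmul (y : Additive (Gamma0 M) →+ ℤ) : castTo (ZMod p) (p • y) = 0 := by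
  refine AddMonoidHom.ext fun γ => ?_
  rw [castTo_apply]
  simp

end red

/-! ### Self-adjointness of `T_ℓ` -/

theorem TL_selfadjoint {N ℓ : ℕ} [NeZero N] (hℓ : ℓ.Prime) (hℓN : ¬ ℓ ∣ N) (h : Nat.Coprime ℓ N)
    (pdN : Lam N →ₗ[ℤ] Lam N →ₗ[ℤ] ℤ) (pdM : Lam (N * ℓ) →ₗ[ℤ] Lam (N * ℓ) →ₗ[ℤ] ℤ)
    (hantiN : ∀ x y, pdN x y = - pdN y x) (hantiM : ∀ x y, pdM x y = - pdM y x)
    (hadj : ∀ x y, pdM (resL N ℓ x) y = pdN x (coresL N ℓ hℓ h y))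
    (hal : ∀ x y, pdM (alL N ℓ hℓ h x) (alL N ℓ hℓ h y) = pdM x y) (x y : Lam N) :
    pdN (TL hℓ hℓN x) y = pdN x (TL hℓ hℓN y) := by
  rw [← coresL_twL hℓ h hℓN, ← coresL_twL hℓ h hℓN, ← hadj, hantiN, ← hadj, ← hantiM,
    ← alL_resL hℓ h, ← alL_resL hℓ h, ← hal (resL N ℓ x), alL_alL]

/-! ### The main statement -/

section main

variable {N q p : ℕ} [NeZero N] [NeZero (N * q)]

omit [NeZero (N * q)] in
/-- Ihara's lemma in lattice form. -/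
theorem ihara_lattice (hp : p.Prime) (hq : q.Prime) (hqN : ¬ q ∣ N) (h : Nat.Coprime q N)
    {ℓ₀ : ℕ} (hℓ₀ : ℓ₀.Prime) (hℓ₀2 : ℓ₀ ≠ 2) (hℓ₀N : ¬ ℓ₀ ∣ N) (hℓ₀q : ℓ₀ ≠ q) (a : ℤ)
    (hne : ¬ (p : ℤ) ∣ ((ℓ₀ : ℤ) + 1 - a)) (x : Lam N × Lam N)
    (h1 : ∃ y', alphaL N q x = p • y')
    (h2 : ∃ x', (TL hℓ₀ hℓ₀N).prodMap (TL hℓ₀ hℓ₀N) x - a • x = p • x') :
    ∃ x', x = p • x' := by
  have : Fact p.Prime := ⟨hp⟩
  obtain ⟨x₁, x₂⟩ := x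
  obtain ⟨y', hy'⟩ := h1
  obtain ⟨⟨z₁, z₂⟩, hz⟩ := h2
  have hz1 : TL hℓ₀ hℓ₀N x₁ - a • x₁ = p • z₁ := congrArg Prod.fst hz
  have hz2 : TL hℓ₀ hℓ₀N x₂ - a • x₂ = p • z₂ := congrArg Prod.snd hz
  -- the key: a pair in the kernel with first component an eigenvector
  have key : ∀ (u₁ u₂ : Lam N) (w : Lam (N * q)) (z : Lam N),
      resL N q u₁ + twL N q u₂ = p • w → TL hℓ₀ hℓ₀N u₁ - a • u₁ = p • z →
      ∃ u', u₁ = p • u' := by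
    intro u₁ u₂ w z hw hz
    rw [← castTo_eq_zero_iff]
    by_contra hne0
    apply hne
    have hker : res N q (castTo (ZMod p) u₁.1) + tw N q (castTo (ZMod p) u₂.1) = 0 := by
      have e1 : res N q (castTo (ZMod p) u₁.1) = castTo (ZMod p) (res N q u₁.1) :=
        (isCorr_res N q).corrHom_comp (Int.castAddHom (ZMod p)) u₁.1
      have e2 : tw N q (castTo (ZMod p) u₂.1) = castTo (ZMod p) (tw N q u₂.1) :=
        (isCorr_tw N q).corrHom_comp (Int.castAddHom (ZMod p)) u₂.1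
      rw [e1, e2, ← map_add]
      have e3 : res N q u₁.1 + tw N q u₂.1 = p • w.1 := congrArg Subtype.val hw
      rw [e3, castTo_nsmul]
    have heig : ∀ γ : Gamma0 N, heckeHomT hℓ₀ hℓ₀N (castTo (ZMod p) u₁.1) (Additive.ofMul γ)
        = (a : ZMod p) * castTo (ZMod p) u₁.1 (Additive.ofMul γ) := by
      intro γ
      rw [heckeHomT_castTo]
      have e3 : heckeHomT hℓ₀ hℓ₀N u₁.1 = a • u₁.1 + p • z.1 := by
        have := congrArg Subtype.val hz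
        have e4 : heckeHomT hℓ₀ hℓ₀N u₁.1 - a • u₁.1 = p • z.1 := this
        rw [← e4]; abel
      rw [e3, castTo_apply, castTo_apply]
      simp
    have := ihara (F := ZMod p) hp hq hqN hℓ₀ hℓ₀2 hℓ₀N hℓ₀q
      (castTo_mem_homPE N p u₁.2) (castTo_mem_homPE N p u₂.2) hker (a : ZMod p) heig hne0
    rw [← CharP.intCast_eq_zero_iff (ZMod p) p]
    push_cast
    rw [this]; ring
  obtain ⟨u₁, hu₁⟩ := key x₁ x₂ y' z₁ hy' hz1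
  -- second component: apply the Atkin-Lehner involution
  have hy2 : resL N q x₂ + twL N q 0 = p • (alL N q hq h (y' - resL N q u₁)) := by
    have e : twL N q x₂ = p • (y' - resL N q u₁) := by
      have : resL N q x₁ + twL N q x₂ = p • y' := hy'
      rw [smul_sub, ← this, hu₁, map_nsmul]; abel
    rw [map_zero, add_zero, ← alL_twL hq h, e, map_nsmul]
  obtain ⟨u₂, hu₂⟩ := key x₂ 0 _ z₂ hy2 hz2
  exact ⟨(u₁, u₂), by rw [hu₁, hu₂]; rfl⟩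

/-- **Ribet's argument**, the pairings being given. -/
theorem ribet_core (hp : p.Prime) (hq : q.Prime) (hqN : ¬ q ∣ N) (h : Nat.Coprime q N)
    (pdN : Lam N →ₗ[ℤ] Lam N →ₗ[ℤ] ℤ) (pdM : Lam (N * q) →ₗ[ℤ] Lam (N * q) →ₗ[ℤ] ℤ)
    (hndN : ∀ x, (∀ y, (p : ℤ) ∣ pdN x y) → ∃ x', x = p • x')
    (hndM : ∀ x, (∀ y, (p : ℤ) ∣ pdM x y) → ∃ x', x = p • x')
    (hadj : ∀ x y, pdM (resL N q x) y = pdN x (coresL N q hq h y))
    (hal : ∀ x y, pdM (alL N q hq h x) (alL N q hq h y) = pdM x y)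
    (a : ℕ → ℤ) (P : ℕ → Prop)
    {ℓ₀ : ℕ} (hℓ₀ : ℓ₀.Prime) (hℓ₀2 : ℓ₀ ≠ 2) (hℓ₀N : ¬ ℓ₀ ∣ N) (hℓ₀q : ℓ₀ ≠ q) (hPℓ₀ : P ℓ₀)
    (hne : ¬ (p : ℤ) ∣ ((ℓ₀ : ℤ) + 1 - a ℓ₀))
    (hTadj : ∀ x y, pdN (TL hℓ₀ hℓ₀N x) y = pdN x (TL hℓ₀ hℓ₀N y))
    (x₀ : Lam N) (ε : ℤ) (hx₀ : ¬ ∃ y : Lam N, x₀ = p • y) (hε : ε = 1 ∨ ε = -1)
    (hT : ∀ ℓ (hℓ : ℓ.Prime) (hℓN : ¬ ℓ ∣ N), P ℓ →
      ∃ y : Lam N, heckeHomT hℓ hℓN x₀.1 - a ℓ • x₀.1 = p • y.1)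
    (hTq : ∃ y : Lam N, heckeHomT hq hqN x₀.1 - (ε * ((q : ℤ) + 1)) • x₀.1 = p • y.1) :
    ∃ x : Lam (N * q), (¬ ∃ y : Lam (N * q), x = p • y) ∧
      heckeHomU (Dvd.intro_left N rfl) (heckeHomU (Dvd.intro_left N rfl) x.1) = x.1 ∧
      ∀ ℓ (hℓ : ℓ.Prime) (hℓM : ¬ ℓ ∣ N * q), P ℓ →
        ∃ y : Lam (N * q), heckeHomT hℓ hℓM x.1 - a ℓ • x.1 = p • y.1 := by
  have : Fact p.Prime := ⟨hp⟩
  have hℓ₀M : ¬ ℓ₀ ∣ N * q := fun hd => by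
    rcases (Nat.Prime.dvd_mul hℓ₀).1 hd with h1 | h1
    · exact hℓ₀N h1
    · exact hℓ₀q ((Nat.prime_dvd_prime_iff_eq hℓ₀ hq).1 h1)
  -- lattice forms of the hypotheses
  have hT' : ∀ ℓ (hℓ : ℓ.Prime) (hℓN : ¬ ℓ ∣ N), P ℓ → ∃ y : Lam N, TL hℓ hℓN x₀ - a ℓ • x₀ = p • y :=
    fun ℓ hℓ hℓN hP => (hT ℓ hℓ hℓN hP).imp fun y hy => Subtype.ext hy
  have hTq' : ∃ y : Lam N, TL hq hqN x₀ - (ε * ((q : ℤ) + 1)) • x₀ = p • y :=
    hTq.imp fun y hy => Subtype.ext hy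
  -- the pairing on `L = Lam N × Lam N`
  let B : (Lam N × Lam N) →ₗ[ℤ] (Lam N × Lam N) →ₗ[ℤ] ℤ :=
    LinearMap.coprod
      ((LinearMap.lcomp ℤ ℤ (LinearMap.fst ℤ (Lam N) (Lam N))).comp pdN)
      ((LinearMap.lcomp ℤ ℤ (LinearMap.snd ℤ (Lam N) (Lam N))).comp pdN)
  have hBdef : ∀ x y, B x y = pdN x.1 y.1 + pdN x.2 y.2 := fun x y => by
    simp [B, LinearMap.coprod_apply]
  have hB : ∀ x, (∀ y, (p : ℤ) ∣ B x y) → ∃ x', x = p • x' := by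
    rintro ⟨x₁, x₂⟩ hx
    obtain ⟨u₁, hu₁⟩ := hndN x₁ (fun y => by simpa [hBdef] using hx (y, 0))
    obtain ⟨u₂, hu₂⟩ := hndN x₂ (fun y => by simpa [hBdef] using hx (0, y))
    exact ⟨(u₁, u₂), by rw [hu₁, hu₂]; rfl⟩
  have hadj' : ∀ x y, pdM (alphaL N q x) y = B x (betaL N q hq h y) := by
    intro x y
    rw [hBdef, alphaL_apply, betaL_apply, map_add, LinearMap.add_apply, hadj, ← alL_resL hq h]
    show _ = pdN x.1 (coresL N q hq h y) + pdN x.2 (coresL N q hq h (alL N q hq h y))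
    rw [← hadj x.2, ← hal (resL N q x.2) (alL N q hq h y), alL_alL]
  let T : (Lam N × Lam N) →ₗ[ℤ] (Lam N × Lam N) := (TL hℓ₀ hℓ₀N).prodMap (TL hℓ₀ hℓ₀N)
  have hTdef : ∀ x, T x = (TL hℓ₀ hℓ₀N x.1, TL hℓ₀ hℓ₀N x.2) := fun x => rfl
  -- the vector `v`
  let v : Lam N × Lam N := (x₀, - ε • x₀)
  have hv : ∃ x', T v - a ℓ₀ • v = p • x' := by
    obtain ⟨y, hy⟩ := hT' ℓ₀ hℓ₀ hℓ₀N hPℓ₀
    refine ⟨(y, - ε • y), ?_⟩
    rw [hTdef]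
    refine Prod.ext hy ?_
    show TL hℓ₀ hℓ₀N (- ε • x₀) - a ℓ₀ • (- ε • x₀) = p • (- ε • y)
    rw [map_zsmul, smul_comm (a ℓ₀), ← smul_sub, hy, smul_comm]
  have hε2 : ε * ε = 1 := by rcases hε with rfl | rfl <;> norm_num
  have hβαv : ∃ x', betaL N q hq h (alphaL N q v) = p • x' := by
    obtain ⟨y, hy⟩ := hTq'
    have hy' : TL hq hqN x₀ = (ε * ((q : ℤ) + 1)) • x₀ + p • y := by rw [← hy]; abel
    refine ⟨(- ε • y, y), ?_⟩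
    rw [betaL_alphaL hq h hqN]
    refine Prod.ext ?_ ?_
    · show (q + 1) • x₀ + TL hq hqN (- ε • x₀) = p • (- ε • y)
      rw [map_zsmul, hy', smul_add, smul_smul, smul_comm (- ε) p y]
      have : -ε * (ε * ((q : ℤ) + 1)) = - ((q : ℤ) + 1) := by
        rw [← mul_assoc, neg_mul, hε2]; ring
      rw [this, neg_smul]
      have e : (q + 1) • x₀ = ((q : ℤ) + 1) • x₀ := by
        rw [← natCast_zsmul]; push_cast; rfl
      rw [e]; abel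
    · show TL hq hqN x₀ + (q + 1) • (- ε • x₀) = p • y
      rw [hy']
      have e : (q + 1) • (- ε • x₀) = - ((ε * ((q : ℤ) + 1)) • x₀) := by
        rw [← natCast_zsmul, smul_smul, ← neg_smul]; congr 1; push_cast; ring
      rw [e]; abel
  have hIh := ihara_lattice hp hq hqN h hℓ₀ hℓ₀2 hℓ₀N hℓ₀q (a ℓ₀) hne
  obtain ⟨b, hb0, y', hby⟩ := Abs.ribet_abstract p B pdM hB hndM (alphaL N q) (betaL N q hq h) hadj'
    T (TL hℓ₀ hℓ₀M) (fun x => (TL_alphaL hℓ₀ hℓ₀N hℓ₀M x).symm)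
    (fun y => betaL_TL hq h hℓ₀ hℓ₀N hℓ₀M y)
    (fun x y => by rw [hBdef, hBdef, hTdef, hTdef, hTadj, hTadj]) (a ℓ₀) hIh v hv hβαv
  have hb : b = alphaL N q v + p • y' := by rw [← hby]; abel
  refine ⟨b, ?_, ?_, ?_⟩
  · rintro ⟨y, hy⟩
    apply hx₀
    obtain ⟨⟨u₁, u₂⟩, hu⟩ := hIh v ⟨y - y', by rw [smul_sub, ← hy, hb]; abel⟩ hv
    exact ⟨u₁, congrArg Prod.fst hu⟩
  · exact congrArg Subtype.val (UL_UL_of_betaL_eq_zero hq h hb0)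
  · intro ℓ hℓ hℓM hP
    have hℓN : ¬ ℓ ∣ N := fun hd => hℓM (Dvd.dvd.mul_right hd q)
    obtain ⟨y, hy⟩ := hT' ℓ hℓ hℓN hP
    have hy1 : TL hℓ hℓN x₀ = a ℓ • x₀ + p • y := by rw [← hy]; abel
    refine ⟨alphaL N q (y, - ε • y) + TL hℓ hℓM y' - a ℓ • y', ?_⟩
    have goal : TL hℓ hℓM b - a ℓ • b =
        p • (alphaL N q (y, - ε • y) + TL hℓ hℓM y' - a ℓ • y') := by
      have e1 : (TL hℓ hℓN v.1, TL hℓ hℓN v.2) = a ℓ • v + p • (y, - ε • y) := by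
        refine Prod.ext hy1 ?_
        show TL hℓ hℓN (- ε • x₀) = a ℓ • (- ε • x₀) + p • (- ε • y)
        rw [map_zsmul, hy1, smul_add, smul_comm (- ε) (a ℓ), smul_comm (- ε) p]
      rw [hb, map_add, TL_alphaL hℓ hℓN hℓM, e1, map_add, map_zsmul, map_nsmul, map_nsmul,
        smul_add, smul_sub, smul_add, smul_comm (a ℓ) p y']
      abel
    exact congrArg Subtype.val goal

end main

end Fermat.Agent.S41.Ribet
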