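/-
S41 (owner of this file: helper41): the top assembly.

`result_of_inputs` : (NE) + (RIBET) ⟹ the frozen statement S41, using H1 (helper101) and H2.

* (NE)    = `Fermat.Agent.S41.A.exists_nonEisenstein_prime` (helper188), here as the hypothesis
            `NEStatement`;
* (RIBET) = Ribet's argument on the lattices `Lam N`, `Lam (N q)` (helper188), here as the
            hypothesis `RibetStatement`.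
-/
import Fermat.Statements.S41
import Fermat.Agent.S41.H1.Main
import Fermat.Agent.S41.H2.Main

set_option autoImplicit false

open WeierstrassCurve WeierstrassCurve.Affine WeierstrassCurve.Affine.Point
open scoped CongruenceSubgroup
open CongruenceSubgroup

namespace Fermat.Agent.S41

open Fermat.Agent.Lib.HeckeHom

/-- Existence of a non-Eisenstein prime (block NE). -/
def NEStatement : Prop :=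
  ∀ (E : WeierstrassCurve ℚ) [E.IsElliptic] {W : WeierstrassCurve ℤ} (_ : W.IsIntegralModelOf E)
    {p : ℕ} (_ : p.Prime) (_ : p ≠ 2)
    (_ : GaloisRepIsIrreducible (K := AlgebraicClosure ℚ) ℚ E p) (S : Finset ℕ),
    ∃ ℓ : ℕ, ℓ.Prime ∧ ℓ ∉ S ∧ W.IsGoodPrimeFor ℓ ∧
      ¬ (p : ℤ) ∣ ((ℓ : ℤ) + 1 - W.apOfModel ℓ)

/-- Ribet's level raising on the lattices (blocks I, LC, PD, G, RIBET). -/
def RibetStatement : Prop :=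
  ∀ {p N q : ℕ} [NeZero N] [NeZero (N * q)] (_ : p.Prime) (_ : p ≠ 2) (hq : q.Prime)
    (hqN : ¬ q ∣ N) (_ : q ≠ p) (a : ℕ → ℤ) (P : ℕ → Prop)
    (_ : ∃ ℓ₀ : ℕ, ℓ₀.Prime ∧ ℓ₀ ≠ 2 ∧ ¬ ℓ₀ ∣ N * q ∧ ℓ₀ ≠ p ∧ P ℓ₀ ∧
      ¬ (p : ℤ) ∣ ((ℓ₀ : ℤ) + 1 - a ℓ₀))
    (x₀ : Lam N) (ε : ℤ) (_ : ¬ ∃ y : Lam N, x₀ = p • y) (_ : ε = 1 ∨ ε = -1)
    (_ : ∀ (ℓ : ℕ) (hℓ : ℓ.Prime) (hℓN : ¬ ℓ ∣ N), P ℓ →
      ∃ y : Lam N, heckeHomT hℓ hℓN x₀.1 - a ℓ • x₀.1 = p • y.1)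
    (_ : ∃ y : Lam N, heckeHomT hq hqN x₀.1 - (ε * ((q : ℤ) + 1)) • x₀.1 = p • y.1),
    ∃ x : Lam (N * q), (¬ ∃ y : Lam (N * q), x = p • y) ∧
      heckeHomU (Dvd.intro_left N rfl) (heckeHomU (Dvd.intro_left N rfl) x.1) = x.1 ∧
      ∀ (ℓ : ℕ) (hℓ : ℓ.Prime) (hℓM : ¬ ℓ ∣ N * q), P ℓ →
        ∃ y : Lam (N * q), heckeHomT hℓ hℓM x.1 - a ℓ • x.1 = p • y.1

theorem result_of_inputs (hNE : NEStatement) (hR : RibetStatement)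
    (E : WeierstrassCurve ℚ) [E.IsElliptic] {W : WeierstrassCurve ℤ} (hW : W.IsIntegralModelOf E)
    {p N q' : ℕ} (hp : p.Prime) (hp2 : p ≠ 2) (hN : 0 < N) (hq' : q'.Prime) (hq'N : ¬ q' ∣ N)
    (hq'p : q' ≠ p)
    (hirr : GaloisRepIsIrreducible (K := AlgebraicClosure ℚ) ℚ E p)
    (f : CuspForm (CongruenceSubgroup.Gamma0 N) 2) (𝔪 : Ideal (integralClosure ℤ ℂ))
    (hf : f.IsNormalizedEigenform) (hmax : 𝔪.IsMaximal) (hpm : (p : integralClosure ℤ ℂ) ∈ 𝔪)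
    (hcong : ∀ ℓ : ℕ, ℓ.Prime → W.IsGoodPrimeFor ℓ → ¬ ℓ ∣ N → ℓ ≠ p →
      ∃ a : integralClosure ℤ ℂ, (a : ℂ) = ModularFormClass.qCoeff f ℓ ∧
        a - ((W.apOfModel ℓ : ℤ) : integralClosure ℤ ℂ) ∈ 𝔪)
    (hLR : ∃ a : integralClosure ℤ ℂ, (a : ℂ) = ModularFormClass.qCoeff f q' ∧
      a ^ 2 - ((q' : integralClosure ℤ ℂ) + 1) ^ 2 ∈ 𝔪) :
    ∃ (g : CuspForm (CongruenceSubgroup.Gamma0 (N * q')) 2) (𝔪' : Ideal (integralClosure ℤ ℂ)),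
      g.IsNormalizedEigenform ∧ 𝔪'.IsMaximal ∧ (p : integralClosure ℤ ℂ) ∈ 𝔪' ∧
      (∀ ℓ : ℕ, ℓ.Prime → W.IsGoodPrimeFor ℓ → ¬ ℓ ∣ N * q' → ℓ ≠ p →
        ∃ a : integralClosure ℤ ℂ, (a : ℂ) = ModularFormClass.qCoeff g ℓ ∧
          a - ((W.apOfModel ℓ : ℤ) : integralClosure ℤ ℂ) ∈ 𝔪') ∧
      g.IsNewAt q' := by
  have : NeZero N := ⟨hN.ne'⟩
  have hM : N * q' ≠ 0 := Nat.mul_ne_zero hN.ne' hq'.ne_zero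
  have : NeZero (N * q') := ⟨hM⟩
  set P : ℕ → Prop := fun ℓ => W.IsGoodPrimeFor ℓ ∧ ℓ ≠ p with hP
  -- H1
  obtain ⟨x₀, ε, hx₀, hε, hT₀, hq₀⟩ := H1.exists_eigenclass_lam hp hq' hq'N hf 𝔪 hmax hpm
    (fun ℓ => W.apOfModel ℓ) P (fun ℓ hℓ hℓN hPℓ => hcong ℓ hℓ hPℓ.1 hℓN hPℓ.2) hLR
  -- NE
  obtain ⟨ℓ₀, hℓ₀, hℓ₀S, hℓ₀g, hℓ₀ne⟩ := hNE E hW hp hp2 hirr ((N * q').divisors ∪ {2, p})
  have hℓ₀M : ¬ ℓ₀ ∣ N * q' := fun hd =>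
    hℓ₀S (Finset.mem_union_left _ (Nat.mem_divisors.2 ⟨hd, hM⟩))
  have hℓ₀2 : ℓ₀ ≠ 2 := fun h2 => hℓ₀S (Finset.mem_union_right _ (by simp [h2]))
  have hℓ₀p : ℓ₀ ≠ p := fun h2 => hℓ₀S (Finset.mem_union_right _ (by simp [h2]))
  -- RIBET
  obtain ⟨x, hx, hU, hT⟩ := hR hp hp2 hq' hq'N hq'p (fun ℓ => W.apOfModel ℓ) P
    ⟨ℓ₀, hℓ₀, hℓ₀2, hℓ₀M, hℓ₀p, ⟨hℓ₀g, hℓ₀p⟩, hℓ₀ne⟩ x₀ ε hx₀ hε hT₀ hq₀
  -- H2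
  obtain ⟨g, 𝔪', hg, hmax', hp', hc, hnew⟩ := H2.exists_eigenform_of_lattice_vector hp hq'
    (Dvd.intro_left N rfl) (fun ℓ => W.apOfModel ℓ) P x hx hU hT
  exact ⟨g, 𝔪', hg, hmax', hp', fun ℓ hℓ hgood hℓM hℓp => hc ℓ hℓ hℓM ⟨hgood, hℓp⟩, hnew⟩

end Fermat.Agent.S41
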